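import Mathlib
import Fermat.Agent.S14x.H24_Reduction

/-!
# S14 (Ext vanishing), wave 4: package deliverables as exact Lean propositions (helper26, ASM)

Blueprint: findings `S14 PLAN (lead)`.  Top of the tree (landed, helper24):
`Fermat.Agent.S14x.extVanishingCts_of_core : 3 ≤ p → Core p → ExtVanishingCts p`.

Representation: number fields are TYPES `K L : Type` with `[Field] [NumberField]`,
`[Algebra K L]`; `K = ℚ(ζ_p)` is expressed by `[IsCyclotomicExtension {p} ℚ K]`;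
primes are (nonzero, prime) ideals of `𝓞 K`; Frobenius elements are given by the PREDICATE
`IsFrobAt` (no choice of a Frobenius is ever made in a statement); Artin maps are given by the
PREDICATE `IsArtinMap` on functions `Ideal (𝓞 K) → (L ≃ₐ[K] L)`.

Top level:  `Core p`  ⇐ [GLUE] `StNoExt p`  ⇐ [ASM]  `StR p` (AL) + `StS p` (STK) + `StD p` (LFN).
-/

set_option autoImplicit false

open NumberField
open scoped Pointwise

noncomputable section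

namespace Fermat.Agent.S14x.Asm

/-! ### Shared vocabulary -/

section Vocabulary

variable (K L : Type) [Field K] [NumberField K] [Field L] [NumberField L] [Algebra K L]

/-- `σ ∈ Gal(L/K)` is a **Frobenius at the prime `𝔭` of `K`**: `σ x ≡ x ^ N𝔭 (mod 𝔭 𝓞_L)` for every
integer `x` of `L`.  (If `𝔭` is unramified in `L` this says that `σ` is a Frobenius at every prime
of `L` above `𝔭`; if moreover `L/K` is abelian, `σ` exists and is unique.) -/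
def IsFrobAt (𝔭 : Ideal (𝓞 K)) (σ : L ≃ₐ[K] L) : Prop :=
  ∀ x : 𝓞 L, σ • x - x ^ Nat.card (𝓞 K ⧸ 𝔭) ∈ 𝔭.map (algebraMap (𝓞 K) (𝓞 L))

/-- The inertia groups of `L/K` at the primes of `L` dividing `𝔭` are trivial
(Galois-theoretic form of "`𝔭` is unramified in `L`"). -/
def InertiaTrivialAt (𝔭 : Ideal (𝓞 K)) : Prop :=
  ∀ P : Ideal (𝓞 L), P.IsPrime → P ≠ ⊥ → 𝔭 ≤ P.under (𝓞 K) →
    ∀ σ : L ≃ₐ[K] L, (∀ x : 𝓞 L, σ • x - x ∈ P) → σ = 1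

/-- `L/K` is unramified at every finite prime (all inertia groups are trivial). -/
def UnramifiedEverywhere : Prop :=
  ∀ P : Ideal (𝓞 L), P.IsPrime → P ≠ ⊥ →
    ∀ σ : L ≃ₐ[K] L, (∀ x : 𝓞 L, σ • x - x ∈ P) → σ = 1

/-- `L/K` is unramified at every prime of `K` not dividing `𝔪`. -/
def UnramifiedOutside (𝔪 : Ideal (𝓞 K)) : Prop :=
  ∀ 𝔭 : Ideal (𝓞 K), 𝔭.IsPrime → 𝔭 ≠ ⊥ → 𝔭 ⊔ 𝔪 = ⊤ → InertiaTrivialAt K L 𝔭

/-- `Φ` is an **Artin map of `L/K` away from `𝔪`**: multiplicative on the NONZERO ideals prime to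
`𝔪`, and `Φ 𝔭` is a Frobenius at `𝔭` for every nonzero prime `𝔭` not dividing `𝔪`.  (Values on
`⊥` and on ideals which are not prime to `𝔪` are irrelevant.)  For `𝔪 = ⊤` (`= 1`) every ideal
is prime to `𝔪`. -/
structure IsArtinMap (𝔪 : Ideal (𝓞 K)) (Φ : Ideal (𝓞 K) → (L ≃ₐ[K] L)) : Prop where
  map_one : Φ ⊤ = 1
  map_mul : ∀ 𝔞 𝔟 : Ideal (𝓞 K), 𝔞 ≠ ⊥ → 𝔟 ≠ ⊥ → 𝔞 ⊔ 𝔪 = ⊤ → 𝔟 ⊔ 𝔪 = ⊤ →
    Φ (𝔞 * 𝔟) = Φ 𝔞 * Φ 𝔟
  frob : ∀ 𝔭 : Ideal (𝓞 K), 𝔭.IsPrime → 𝔭 ≠ ⊥ → 𝔭 ⊔ 𝔪 = ⊤ → IsFrobAt K L 𝔭 (Φ 𝔭)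

end Vocabulary

/-! ### The number-field statement equivalent to `Core p` -/

/-- **`NoExt p`**: there is no field `L ⊇ K = ℚ(ζ_p)` with `L/K` (cyclic) of degree `p`,
unramified at every prime, `L/ℚ` Galois, and `Gal(K/ℚ)` acting on `Gal(L/K)` through `ω⁻¹`:
`τ ζ = ζ ^ s ⟹ σ τ = τ σ ^ s` (`σ ∈ Gal(L/K)`, `τ ∈ Gal(L/ℚ)`), i.e. `τ⁻¹ σ τ = σ ^ ω(τ)`. -/
def StNoExt (p : ℕ) [Fact p.Prime] : Prop :=
  ∀ (K L : Type) [Field K] [NumberField K] [Field L] [NumberField L] [Algebra K L]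
    [IsCyclotomicExtension {p} ℚ K] [IsGalois K L] [IsGalois ℚ L],
    Module.finrank K L = p →
    UnramifiedEverywhere K L →
    (∀ (ζ : L) (τ : L ≃ₐ[ℚ] L) (s : ℕ), IsPrimitiveRoot ζ p → τ ζ = ζ ^ s →
      ∀ (σ : L ≃ₐ[K] L) (x : L), σ (τ x) = τ ((σ ^ s) x)) →
    False

/-- **Deliverable of GLUE** (helper12): the Galois-side core follows from the number-field
statement. -/
def StGLUE (p : ℕ) [Fact p.Prime] : Prop := 3 ≤ p → StNoExt p → Core p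

/-! ### The three inputs of `NoExt` -/

/-- **(R) Reciprocity, deliverable of AL** (helper20; consumes ART, HQ, LFN-(U)): for `L/K` of
degree `p`, Galois, unramified everywhere, `K = ℚ(ζ_p)`, every Artin map of `L/K` kills the
principal ideals. -/
def StR (p : ℕ) [Fact p.Prime] : Prop :=
  3 ≤ p → ∀ (K L : Type) [Field K] [NumberField K] [Field L] [NumberField L] [Algebra K L]
    [IsCyclotomicExtension {p} ℚ K] [IsGalois K L],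
    Module.finrank K L = p →
    UnramifiedEverywhere K L →
    ∀ Φ : Ideal (𝓞 K) → (L ≃ₐ[K] L), IsArtinMap K L ⊤ Φ →
      ∀ β : 𝓞 K, β ≠ 0 → Φ (Ideal.span {β}) = 1

/-- **Existence of the Artin map, part of the deliverable of ART** (helper25): for `L/K` Galois
with commutative Galois group, unramified outside `𝔪`, there is an Artin map away from `𝔪`. -/
def StArtinExists : Prop :=
  ∀ (K L : Type) [Field K] [NumberField K] [Field L] [NumberField L] [Algebra K L]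
    [IsGalois K L],
    (∀ σ τ : L ≃ₐ[K] L, σ * τ = τ * σ) →
    ∀ 𝔪 : Ideal (𝓞 K), UnramifiedOutside K L 𝔪 →
      ∃ Φ : Ideal (𝓞 K) → (L ≃ₐ[K] L), IsArtinMap K L 𝔪 Φ

/-- **(S) Stickelberger / Jacobi sums, deliverable of STK**: for a prime `𝔔` of `K = ℚ(ζ_p)` of
degree one above `q ≠ p` (so `q ≡ 1 mod p`), and automorphisms `τ_s = σ_s⁻¹`
(`τ_s (ζ ^ s) = ζ`), `1 ≤ s ≤ (p-1)/2`, the ideal `∏_s τ_s 𝔔` is principal. -/
def StS (p : ℕ) [Fact p.Prime] : Prop :=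
  3 ≤ p → ∀ (K : Type) [Field K] [NumberField K] [IsCyclotomicExtension {p} ℚ K]
    (𝔔 : Ideal (𝓞 K)) (q : ℕ), 𝔔.IsPrime → q.Prime → q ≠ p → Nat.card (𝓞 K ⧸ 𝔔) = q →
    ∀ τ : ℕ → (K ≃ₐ[ℚ] K),
      (∀ s ∈ Finset.Icc 1 ((p - 1) / 2), ∀ ζ : K, IsPrimitiveRoot ζ p → τ s (ζ ^ s) = ζ) →
      ∃ J : 𝓞 K, Ideal.span {J} = ∏ s ∈ Finset.Icc 1 ((p - 1) / 2), (τ s • 𝔔)

/-- **(D) Density, deliverable of LFN** (helper22): for `L/K` Galois of degree `p` with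
`K = ℚ(ζ_p)`, `L/ℚ` Galois, unramified everywhere, some prime `𝔔` of `K` of degree one, not above
`p`, has a nontrivial Frobenius. -/
def StD (p : ℕ) [Fact p.Prime] : Prop :=
  3 ≤ p → ∀ (K L : Type) [Field K] [NumberField K] [Field L] [NumberField L] [Algebra K L]
    [IsCyclotomicExtension {p} ℚ K] [IsGalois K L] [IsGalois ℚ L],
    Module.finrank K L = p →
    UnramifiedEverywhere K L →
    ∃ (𝔔 : Ideal (𝓞 K)) (q : ℕ) (σ : L ≃ₐ[K] L),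
      𝔔.IsPrime ∧ q.Prime ∧ q ≠ p ∧ Nat.card (𝓞 K ⧸ 𝔔) = q ∧ IsFrobAt K L 𝔔 σ ∧ σ ≠ 1

/-- **The wiring of the top level** (to be proved by ASM, `Asm/H26_Asm.lean`):
`StGLUE p → StArtinExists → StR p → StS p → StD p → Core p`. -/
def StTop (p : ℕ) [Fact p.Prime] : Prop :=
  3 ≤ p → StGLUE p → StArtinExists → StR p → StS p → StD p → Core p

/-! ### Inner interfaces of (R) (between AL, ART, HQ, LFN, CNT)

`E` is the base field, `M/E` the extension; ideals are INTEGRAL ideals of `𝓞 E`; classes of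
ideals are handled through the equivalence relations `RayEquiv` / `NormEquiv` (no fractional
ideals, no quotient groups in the interfaces). All fields in the application contain `ℚ(ζ_p)`,
`p ≥ 3`, so they are totally complex: no sign conditions. -/

section Ray

variable (E M : Type) [Field E] [NumberField E] [Field M] [NumberField M] [Algebra E M]

/-- `𝔞 ∼ 𝔟` modulo `P_𝔪` (ray classes): `(a) 𝔞 = (b) 𝔟` with `a ≡ b mod 𝔪`, `a` prime to `𝔪`. -/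
def RayEquiv (𝔪 𝔞 𝔟 : Ideal (𝓞 E)) : Prop :=
  ∃ a b : 𝓞 E, a ≠ 0 ∧ b ≠ 0 ∧ a - b ∈ 𝔪 ∧ Ideal.span {a} ⊔ 𝔪 = ⊤ ∧
    Ideal.span {a} * 𝔞 = Ideal.span {b} * 𝔟

/-- `𝔞 ∼ 𝔟` modulo `P_𝔪 · N_{M/E}(I_M^(𝔪))`: `(a) 𝔞 N(𝔄) = (b) 𝔟 N(𝔅)` with `a ≡ b mod 𝔪`,
`a` prime to `𝔪`, `𝔄`, `𝔅` nonzero ideals of `M` with norms prime to `𝔪`. -/
def NormEquiv (𝔪 𝔞 𝔟 : Ideal (𝓞 E)) : Prop :=
  ∃ (a b : 𝓞 E) (𝔄 𝔅 : Ideal (𝓞 M)), a ≠ 0 ∧ b ≠ 0 ∧ a - b ∈ 𝔪 ∧ Ideal.span {a} ⊔ 𝔪 = ⊤ ∧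
    𝔄 ≠ ⊥ ∧ 𝔅 ≠ ⊥ ∧ Ideal.relNorm (𝓞 E) 𝔄 ⊔ 𝔪 = ⊤ ∧ Ideal.relNorm (𝓞 E) 𝔅 ⊔ 𝔪 = ⊤ ∧
    Ideal.span {a} * 𝔞 * Ideal.relNorm (𝓞 E) 𝔄 = Ideal.span {b} * 𝔟 * Ideal.relNorm (𝓞 E) 𝔅

end Ray

/-- **(U) universal norm inequality, deliverable of LFN** (consumes CNT): for `M/E` Galois and
`𝔪 ≠ 0`, `[I_E^(𝔪) : P_𝔪 N(I_M^(𝔪))] ≤ [M : E]`: any family of ideals prime to `𝔪`, pairwise
inequivalent modulo `P_𝔪 N`, has at most `[M : E]` members. -/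
def StU : Prop :=
  ∀ (E M : Type) [Field E] [NumberField E] [Field M] [NumberField M] [Algebra E M]
    [IsGalois E M] (𝔪 : Ideal (𝓞 E)), 𝔪 ≠ ⊥ →
    ∀ (n : ℕ) (𝔞 : Fin n → Ideal (𝓞 E)), (∀ i, 𝔞 i ≠ ⊥ ∧ 𝔞 i ⊔ 𝔪 = ⊤) →
      (∀ i j, i ≠ j → ¬ NormEquiv E M 𝔪 (𝔞 i) (𝔞 j)) → n ≤ Module.finrank E M

/-- **(Lw) first inequality, deliverable of HQ** (helper19), in the only form needed: for `L/K`
Galois of prime degree, unramified everywhere, `K` totally complex, `P_K N(I_L) ≠ I_K`. -/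
def StLw : Prop :=
  ∀ (K L : Type) [Field K] [NumberField K] [Field L] [NumberField L] [Algebra K L]
    [IsGalois K L], (Module.finrank K L).Prime → IsTotallyComplex K →
    UnramifiedEverywhere K L →
    ∃ 𝔞 : Ideal (𝓞 K), 𝔞 ≠ ⊥ ∧ ¬ NormEquiv K L ⊤ 𝔞 ⊤

/-- **(D), general form, deliverable of LFN**: for `M/E` Galois, nontrivial, and `𝔪 ≠ 0`, some
prime `𝔮` of `E` of degree one over `ℚ`, prime to `𝔪`, does not split completely in `M`: some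
prime `P` of `M` above `𝔮` has a nontrivial Frobenius. -/
def StDgen : Prop :=
  ∀ (E M : Type) [Field E] [NumberField E] [Field M] [NumberField M] [Algebra E M]
    [IsGalois E M], 1 < Module.finrank E M → ∀ 𝔪 : Ideal (𝓞 E), 𝔪 ≠ ⊥ →
    ∃ (𝔮 : Ideal (𝓞 E)) (q : ℕ) (P : Ideal (𝓞 M)) (σ : M ≃ₐ[E] M),
      𝔮.IsPrime ∧ q.Prime ∧ Nat.card (𝓞 E ⧸ 𝔮) = q ∧ 𝔮 ⊔ 𝔪 = ⊤ ∧
      P.IsPrime ∧ P.under (𝓞 E) = 𝔮 ∧ IsArithFrobAt (𝓞 E) σ P ∧ σ ≠ 1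

/-- **(N) norms are in the kernel, deliverable of ART**. -/
def StN : Prop :=
  ∀ (K L : Type) [Field K] [NumberField K] [Field L] [NumberField L] [Algebra K L]
    [IsGalois K L], (∀ σ τ : L ≃ₐ[K] L, σ * τ = τ * σ) →
    ∀ 𝔪 : Ideal (𝓞 K), UnramifiedOutside K L 𝔪 →
    ∀ Φ : Ideal (𝓞 K) → (L ≃ₐ[K] L), IsArtinMap K L 𝔪 Φ →
      ∀ 𝔄 : Ideal (𝓞 L), 𝔄 ≠ ⊥ → Ideal.relNorm (𝓞 K) 𝔄 ⊔ 𝔪 = ⊤ →
        Φ (Ideal.relNorm (𝓞 K) 𝔄) = 1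

/-- **Functoriality (base change), deliverable of ART**: `K ⊆ E`, `L/K` abelian, `M ⊇ L, E`
abelian over `E`, `𝔫 ⊆ 𝔪 𝓞_E`: `Φ_{M/E}(𝔄)|_L = Φ_{L/K}(N_{E/K} 𝔄)` for `𝔄` prime to `𝔫`. -/
def StFunct : Prop :=
  ∀ (K L E M : Type) [Field K] [NumberField K] [Field L] [NumberField L] [Field E]
    [NumberField E] [Field M] [NumberField M] [Algebra K L] [Algebra K E] [Algebra L M]
    [Algebra E M] [Algebra K M] [IsScalarTower K L M] [IsScalarTower K E M]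
    [IsGalois K L] [IsGalois E M],
    (∀ σ τ : L ≃ₐ[K] L, σ * τ = τ * σ) → (∀ σ τ : M ≃ₐ[E] M, σ * τ = τ * σ) →
    ∀ (𝔪 : Ideal (𝓞 K)) (𝔫 : Ideal (𝓞 E)), 𝔫 ≤ 𝔪.map (algebraMap (𝓞 K) (𝓞 E)) →
      UnramifiedOutside K L 𝔪 → UnramifiedOutside E M 𝔫 →
    ∀ (Φ : Ideal (𝓞 K) → (L ≃ₐ[K] L)) (Ψ : Ideal (𝓞 E) → (M ≃ₐ[E] M)),
      IsArtinMap K L 𝔪 Φ → IsArtinMap E M 𝔫 Ψ →
      ∀ 𝔄 : Ideal (𝓞 E), 𝔄 ≠ ⊥ → 𝔄 ⊔ 𝔫 = ⊤ →
        ∀ x : L, Ψ 𝔄 (algebraMap L M x) = algebraMap L M (Φ (Ideal.relNorm (𝓞 K) 𝔄) x)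

/-- **(Cy) the cyclotomic case, deliverable of ART + LFN** (consumed by AL): `E` totally complex,
`E ⊆ M ⊆ C = E(ζ_m)`, `M/E` of prime degree: the kernel of the Artin map of `M/E` on the ideals
prime to `m` is contained in `P_m N(I_M^(m))`. -/
def StCy : Prop :=
  ∀ (E M C : Type) [Field E] [NumberField E] [Field M] [NumberField M] [Field C]
    [NumberField C] [Algebra E M] [Algebra M C] [Algebra E C] [IsScalarTower E M C]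
    (m : ℕ) [NeZero m] [IsCyclotomicExtension {m} E C] [IsGalois E M],
    IsTotallyComplex E → (Module.finrank E M).Prime →
    ∀ Φ : Ideal (𝓞 E) → (M ≃ₐ[E] M), IsArtinMap E M (Ideal.span {(m : 𝓞 E)}) Φ →
      ∀ 𝔞 : Ideal (𝓞 E), 𝔞 ≠ ⊥ → 𝔞 ⊔ Ideal.span {(m : 𝓞 E)} = ⊤ → Φ 𝔞 = 1 →
        NormEquiv E M (Ideal.span {(m : 𝓞 E)}) 𝔞 ⊤

/-- **The core of AL** (Artin's lemma + descent): the kernel of the Artin map of the unramified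
extension `L/K` of degree `p` is contained in `P_K N(I_L)`. -/
def StKerLe (p : ℕ) [Fact p.Prime] : Prop :=
  3 ≤ p → ∀ (K L : Type) [Field K] [NumberField K] [Field L] [NumberField L] [Algebra K L]
    [IsCyclotomicExtension {p} ℚ K] [IsGalois K L],
    Module.finrank K L = p →
    UnramifiedEverywhere K L →
    ∀ Φ : Ideal (𝓞 K) → (L ≃ₐ[K] L), IsArtinMap K L ⊤ Φ →
      ∀ 𝔞 : Ideal (𝓞 K), 𝔞 ≠ ⊥ → Φ 𝔞 = 1 → NormEquiv K L ⊤ 𝔞 ⊤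

/-- **Assembly of (R)**: `StKerLe p → StLw → StR p` (AL). -/
def StRAsm (p : ℕ) [Fact p.Prime] : Prop := StKerLe p → StLw → StR p

/-- **Deliverable of AL**: `ker Φ ≤ P_K N(I_L)` from ART ((N), functoriality, existence),
(Cy) and the density statement. -/
def StAL (p : ℕ) [Fact p.Prime] : Prop :=
  StArtinExists → StN → StFunct → StCy → StDgen → StKerLe p

/-- **Deliverable of ART + LFN for (Cy)**: the cyclotomic case from (U), (N), density. -/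
def StCyAsm : Prop := StArtinExists → StN → StU → StDgen → StCy

/-- **Deliverable of CNT** (helper23; consumed by LFN for (U)): the number of integral ideals of
norm `≤ x` in a ray class modulo `𝔪` is `κ x + O(x ^ (1 - 1/n))`, with `κ > 0` independent of
the class (`n = [E : ℚ]`). -/
def StCNT : Prop :=
  ∀ (E : Type) [Field E] [NumberField E] (𝔪 : Ideal (𝓞 E)), 𝔪 ≠ ⊥ →
    ∃ κ : ℝ, 0 < κ ∧ ∀ 𝔞₀ : Ideal (𝓞 E), 𝔞₀ ≠ ⊥ → 𝔞₀ ⊔ 𝔪 = ⊤ →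
      ∃ C : ℝ, ∀ x : ℝ, 1 ≤ x →
        |(Nat.card {𝔞 : Ideal (𝓞 E) // 𝔞 ≠ ⊥ ∧ RayEquiv E 𝔪 𝔞 𝔞₀ ∧
            (Ideal.absNorm 𝔞 : ℝ) ≤ x} : ℝ) - κ * x| ≤
          C * x ^ (1 - 1 / (Module.finrank ℚ E : ℝ))

end Fermat.Agent.S14x.Asm
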