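import Fermat.Agent.S14x.Asm.Defs
import Fermat.Agent.S14x.Stk.H21_StStk

/-!
# S14: the deliverable (S) in the shape of `Asm/Defs.lean` (helper26)

`stS : Asm.StS p`, from helper21's `Stk.stStk` (comap form) by the adapter
`comap (σ⁻¹) Q = σ • Q`.
-/

set_option autoImplicit false
set_option linter.style.haveILetI false

open NumberField
open scoped Pointwise

noncomputable section

namespace Fermat.Agent.S14x.Asm.H26

/-- `comap` along the restriction of `τ⁻¹` is the pointwise action of `τ`. -/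
theorem comap_resO_inv {K : Type} [Field K] [NumberField K] (τ : K ≃ₐ[ℚ] K)
    (Q : Ideal (𝓞 K)) : Ideal.comap (Stk.resO K τ⁻¹) Q = τ • Q := by
  ext x
  rw [Ideal.mem_comap, Ideal.mem_pointwise_smul_iff_inv_smul_mem]
  have : Stk.resO K τ⁻¹ x = τ⁻¹ • x := by
    apply RingOfIntegers.ext
    exact algebraMap_galRestrict_apply ℤ τ⁻¹ x
  rw [this]

/-- **(S) in the shape of `Asm/Defs.lean`.** -/
theorem stS (p : ℕ) [Fact p.Prime] : StS p := by
  intro hp3 K _ _ _ 𝔔 q h𝔔 hq hqp hcard τ hτ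
  have hp : p.Prime := Fact.out
  have h𝔔0 : 𝔔 ≠ ⊥ := by
    intro h0
    have : Ideal.absNorm 𝔔 = q := by
      rw [Ideal.absNorm_apply, Submodule.cardQuot_apply]; exact hcard
    rw [h0, Ideal.absNorm_bot] at this
    exact hq.ne_zero this.symm
  have hmax : 𝔔.IsMaximal := Ideal.IsPrime.isMaximal h𝔔 h𝔔0
  have hset : Stk.Setting p K 𝔔 q := ⟨hp, hp3, inferInstance, hmax, hq, hqp, hcard⟩
  obtain ⟨J, -, hJ⟩ := Stk.stStk p K 𝔔 q hset (fun a => (τ a)⁻¹) (by
    intro a ha ζ hζ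
    have h1 := hτ a ha ζ hζ
    have h2 : (τ a)⁻¹ (τ a (ζ ^ a)) = ζ ^ a := (τ a).symm_apply_apply _
    rw [h1] at h2
    exact h2)
  refine ⟨J, ?_⟩
  rw [hJ]
  refine Finset.prod_congr rfl (fun a _ => ?_)
  exact comap_resO_inv (τ a) 𝔔

end Fermat.Agent.S14x.Asm.H26
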