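import Fermat.Agent.S14x.Asm.H26_Top
import Fermat.Agent.S14x.Asm.H26_StS
import Fermat.Agent.S14x.Art.H28_AsmArt
import Fermat.Agent.S14x.AL.H20_Defs

/-!
# S14: wiring of the landed deliverables (helper26)

`core_of_open` : `Core p` from the deliverables that are still open:
`StGLUE p` (GLUE), `AL.StR' p` (AL + HQ), `StD p` (LFN).
(ART: `StArtinExists` and STK: `StS p` are wired in.)
-/

set_option autoImplicit false

open NumberField

noncomputable section

namespace Fermat.Agent.S14x.Asm.H26

variable (p : ℕ) [Fact p.Prime]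

/-- AL's primed reciprocity implies the reciprocity consumed by the top wiring. -/
theorem stRNoExt_of_stR' (hp3 : 3 ≤ p) (hR : AL.StR' p) : StRNoExt p :=
  fun K L _ _ _ _ _ _ _ _ hdeg hU hT Φ hΦ β hβ => hR hp3 K L hdeg hU hT Φ hΦ β hβ

/-- **`Core p` from the open deliverables** (ART and STK wired in). -/
theorem core_of_open (hp3 : 3 ≤ p) (hG : StGLUE p) (hR : AL.StR' p) (hD : StD p) : Core p :=
  core_of p hp3 hG Art.H28.stArtinExists (stRNoExt_of_stR' p hp3 hR) (stS p) hD

/-- The same with (R) unfolded into AL's assembly: `StKerLe'` (AL) and `StLw` (HQ). -/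
theorem core_of_open' (hp3 : 3 ≤ p) (hG : StGLUE p) (hRA : AL.StRAsm' p)
    (hK : AL.StKerLe' p) (hLw : StLw) (hD : StD p) : Core p :=
  core_of_open p hp3 hG (hRA hK hLw) hD

/-- **S14 from the open deliverables.** -/
theorem extVanishingCts_of_open (hp3 : 3 ≤ p) (hG : StGLUE p) (hR : AL.StR' p) (hD : StD p) :
    ExtCitation.ExtVanishingCts p :=
  extVanishingCts_of_core hp3 (core_of_open p hp3 hG hR hD)

end Fermat.Agent.S14x.Asm.H26
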