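import Fermat.Agent.S14x.Asm.H26_Wire2
import Fermat.Agent.S14x.AL.H7_PairData
import Fermat.Agent.S14x.AL.H14_PairOfData

/-!
# S14: the closed statement (helper26)

`h26_extVanishingCts : 3 ≤ p → ExtCitation.ExtVanishingCts p`, hypothesis-free: the wiring
`h26_ext_of_halves` applied to the two halves of leaf [F7] of package AL
(`AL.H7.stPairDataAsm`, helper7, and `AL.H14.stPairOfData`, helper14).
-/

set_option autoImplicit false

namespace Fermat.Agent.S14x.Asm.H26

/-- Artin's lemma for pairs of primes, hypothesis-free. -/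
theorem h26_stPair (p : ℕ) [Fact p.Prime] : AL.StPair p :=
  h26_stPair_of_halves p (AL.H7.stPairDataAsm p) (AL.H14.stPairOfData p)

/-- **S14, hypothesis-free.** -/
theorem h26_extVanishingCts (p : ℕ) [Fact p.Prime] (hp3 : 3 ≤ p) :
    ExtCitation.ExtVanishingCts p :=
  h26_ext_of_pair p hp3 (h26_stPair p)

end Fermat.Agent.S14x.Asm.H26
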