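import Fermat.Agent.S14x.Asm.Defs

/-!
# S14: the top wiring (helper26)

`noExt_core`: inside the situation of `StNoExt p` (fields `K = ℚ(ζ_p) ⊆ L`, degree `p`,
unramified everywhere, twist `ω⁻¹`), reciprocity (R) for `L/K`, (S) and (D) are contradictory.
-/

set_option autoImplicit false
set_option linter.style.haveILetI false
set_option linter.unusedSectionVars false

open NumberField
open scoped Pointwise

noncomputable section

namespace Fermat.Agent.S14x.Asm.H26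

section Frob

variable {K L : Type} [Field K] [NumberField K] [Field L] [NumberField L] [Algebra K L]
  [IsGalois K L]

/-- `𝔭 𝓞_L` is stable under `Gal(L/K)`. -/
theorem smul_mem_map (𝔭 : Ideal (𝓞 K)) (τ : L ≃ₐ[K] L) {y : 𝓞 L}
    (hy : y ∈ 𝔭.map (algebraMap (𝓞 K) (𝓞 L))) : τ • y ∈ 𝔭.map (algebraMap (𝓞 K) (𝓞 L)) := by
  have hle : 𝔭.map (algebraMap (𝓞 K) (𝓞 L)) ≤
      (𝔭.map (algebraMap (𝓞 K) (𝓞 L))).comap (MulSemiringAction.toRingHom (L ≃ₐ[K] L) (𝓞 L) τ) := by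
    rw [Ideal.map_le_iff_le_comap]
    intro a ha
    rw [Ideal.mem_comap, Ideal.mem_comap, MulSemiringAction.toRingHom_apply, smul_algebraMap]
    exact Ideal.mem_map_of_mem _ ha
  exact hle hy

/-- Uniqueness of the Frobenius (in the `IsFrobAt` form) when all inertia groups are trivial. -/
theorem frob_unique (hU : UnramifiedEverywhere K L) {𝔭 : Ideal (𝓞 K)} (hp : 𝔭.IsPrime)
    (hp0 : 𝔭 ≠ ⊥) {σ σ' : L ≃ₐ[K] L} (h : IsFrobAt K L 𝔭 σ) (h' : IsFrobAt K L 𝔭 σ') :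
    σ = σ' := by
  haveI := hp
  obtain ⟨P, -, hPprime, hPover⟩ :=
    Ideal.exists_ideal_over_prime_of_isIntegral (S := 𝓞 L) 𝔭 (⊥ : Ideal (𝓞 L)) (by
      intro x hx
      rw [Ideal.mem_comap, Ideal.mem_bot] at hx
      have : x = 0 := (FaithfulSMul.algebraMap_injective (𝓞 K) (𝓞 L)) (by rw [hx, map_zero])
      rw [this]; exact zero_mem _)
  have hPle : 𝔭.map (algebraMap (𝓞 K) (𝓞 L)) ≤ P := by
    rw [Ideal.map_le_iff_le_comap, hPover]
  have hP0 : P ≠ ⊥ := by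
    rintro rfl
    apply hp0
    rw [← hPover]
    rw [eq_bot_iff]
    intro x hx
    rw [Ideal.mem_comap, Ideal.mem_bot] at hx
    have : x = 0 := (FaithfulSMul.algebraMap_injective (𝓞 K) (𝓞 L)) (by rw [hx, map_zero])
    rw [this]; exact zero_mem _
  have key : σ'⁻¹ * σ = 1 := by
    apply hU P hPprime hP0
    intro x
    have h1 : σ • x - σ' • x ∈ 𝔭.map (algebraMap (𝓞 K) (𝓞 L)) := by
      have := sub_mem (h x) (h' x)
      simpa using this
    have h2 := smul_mem_map 𝔭 σ'⁻¹ h1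
    rw [smul_sub, inv_smul_smul, ← mul_smul] at h2
    exact hPle h2
  calc σ = σ' * (σ'⁻¹ * σ) := by group
    _ = σ' := by rw [key, mul_one]

end Frob

section Conj

variable {K L : Type} [Field K] [NumberField K] [Field L] [NumberField L] [Algebra K L]
  [IsGalois K L] [Normal ℚ K]

/-- The residue field of a conjugate prime has the same cardinality. -/
theorem card_quot_smul (τ : K ≃ₐ[ℚ] K) (𝔮 : Ideal (𝓞 K)) :
    Nat.card (𝓞 K ⧸ τ • 𝔮) = Nat.card (𝓞 K ⧸ 𝔮) := by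
  have e : (𝓞 K ⧸ 𝔮) ≃+* (𝓞 K ⧸ τ • 𝔮) :=
    Ideal.quotientEquiv 𝔮 (τ • 𝔮) (MulSemiringAction.toRingEquiv (K ≃ₐ[ℚ] K) (𝓞 K) τ) rfl
  exact (Nat.card_congr e.toEquiv).symm

/-- Compatibility of the action of `τ̃ ∈ Gal(L/ℚ)` on `𝓞 L` with its restriction to `K`. -/
theorem smul_algebraMap_restrict (τ' : L ≃ₐ[ℚ] L) (a : 𝓞 K) :
    τ' • algebraMap (𝓞 K) (𝓞 L) a =
      algebraMap (𝓞 K) (𝓞 L) (AlgEquiv.restrictNormalHom K τ' • a) := by
  apply RingOfIntegers.ext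
  show τ' (algebraMap K L (a : K)) = algebraMap K L ((AlgEquiv.restrictNormalHom K τ') (a : K))
  exact (AlgEquiv.restrictNormal_commutes τ' K (a : K)).symm

/-- `τ̃ (𝔮 𝓞_L) ⊆ (τ 𝔮) 𝓞_L` for `τ = τ̃|_K`. -/
theorem smul_mem_map_smul (τ' : L ≃ₐ[ℚ] L) (𝔮 : Ideal (𝓞 K)) {z : 𝓞 L}
    (hz : z ∈ 𝔮.map (algebraMap (𝓞 K) (𝓞 L))) :
    τ' • z ∈ (AlgEquiv.restrictNormalHom K τ' • 𝔮).map (algebraMap (𝓞 K) (𝓞 L)) := by
  have hle : 𝔮.map (algebraMap (𝓞 K) (𝓞 L)) ≤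
      ((AlgEquiv.restrictNormalHom K τ' • 𝔮).map (algebraMap (𝓞 K) (𝓞 L))).comap
        (MulSemiringAction.toRingHom (L ≃ₐ[ℚ] L) (𝓞 L) τ') := by
    rw [Ideal.map_le_iff_le_comap]
    intro a ha
    rw [Ideal.mem_comap, Ideal.mem_comap, MulSemiringAction.toRingHom_apply,
      smul_algebraMap_restrict]
    exact Ideal.mem_map_of_mem _ (Ideal.smul_mem_pointwise_smul _ _ _ ha)
  exact hle hz

/-- **(E)** in the `IsFrobAt` form: if `σ` is a Frobenius at `𝔮` and `σ' = τ̃ σ τ̃⁻¹`, then `σ'` is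
a Frobenius at `τ̃|_K • 𝔮`. -/
theorem frob_conj {𝔮 : Ideal (𝓞 K)} {σ σ' : L ≃ₐ[K] L} (τ' : L ≃ₐ[ℚ] L)
    (hσ' : ∀ x : L, σ' x = τ' (σ (τ'⁻¹ x))) (h : IsFrobAt K L 𝔮 σ) :
    IsFrobAt K L (AlgEquiv.restrictNormalHom K τ' • 𝔮) σ' := by
  intro x
  have h1 := smul_mem_map_smul τ' 𝔮 (h (τ'⁻¹ • x))
  rw [card_quot_smul]
  have h2 : τ' • (σ • (τ'⁻¹ • x) - (τ'⁻¹ • x) ^ Nat.card (𝓞 K ⧸ 𝔮)) =
      σ' • x - x ^ Nat.card (𝓞 K ⧸ 𝔮) := by
    rw [smul_sub, smul_pow', smul_inv_smul]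
    congr 1
    apply RingOfIntegers.ext
    show τ' (σ (τ'⁻¹ (x : L))) = σ' (x : L)
    exact (hσ' _).symm
  rw [h2] at h1
  exact h1

end Conj

section Tau

variable (p : ℕ) [Fact p.Prime] (K : Type) [Field K] [NumberField K]
  [IsCyclotomicExtension {p} ℚ K]

/-- The automorphisms `τ_s = σ_s⁻¹` of `K = ℚ(ζ_p)`: `τ_s (ζ ^ s) = ζ`. -/
theorem exists_tau : ∃ τ : ℕ → (K ≃ₐ[ℚ] K),
    ∀ s : ℕ, s.Coprime p → ∀ ζ : K, IsPrimitiveRoot ζ p → τ s (ζ ^ s) = ζ := by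
  classical
  have hp : p.Prime := Fact.out
  haveI : NeZero p := ⟨hp.ne_zero⟩
  have hirr : Irreducible (Polynomial.cyclotomic p ℚ) :=
    Polynomial.cyclotomic.irreducible_rat hp.pos
  have hz := IsCyclotomicExtension.zeta_spec p ℚ K
  refine ⟨fun s => if hs : s.Coprime p then
      (IsCyclotomicExtension.fromZetaAut (hz.pow_of_coprime s hs) hirr)⁻¹ else 1, ?_⟩
  intro s hs ζ hζ
  beta_reduce
  rw [dif_pos hs]
  have hspec := IsCyclotomicExtension.fromZetaAut_spec (hz.pow_of_coprime s hs) hirr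
  obtain ⟨j, -, hj⟩ := hz.eq_pow_of_pow_eq_one hζ.pow_eq_one
  have h1 : IsCyclotomicExtension.fromZetaAut (hz.pow_of_coprime s hs) hirr ζ = ζ ^ s := by
    rw [← hj, map_pow, hspec, ← pow_mul, ← pow_mul, mul_comm]
  rw [← h1]
  exact (IsCyclotomicExtension.fromZetaAut (hz.pow_of_coprime s hs) hirr).symm_apply_apply ζ

end Tau

section Main

variable (p : ℕ) [Fact p.Prime]

/-- `∑_{s=1}^{m} s` is prime to `p` for `m = (p - 1) / 2`, `p ≥ 3`. -/
theorem coprime_sum (hp3 : 3 ≤ p) :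
    Nat.Coprime (∑ s ∈ Finset.Icc 1 ((p - 1) / 2), s) p := by
  have hp : p.Prime := Fact.out
  set m := (p - 1) / 2 with hm
  have h1 : ∀ n : ℕ, (∑ s ∈ Finset.Icc 1 n, s) * 2 = n * (n + 1) := by
    intro n
    induction n with
    | zero => simp
    | succ k ih =>
      rw [Finset.sum_Icc_succ_top (by omega), add_mul, ih]
      ring
  have h1 := h1 m
  rw [Nat.coprime_comm, Nat.Prime.coprime_iff_not_dvd hp]
  intro hdvd
  have h4 : p ∣ m * (m + 1) := by rw [← h1]; exact Dvd.dvd.mul_right hdvd 2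
  rcases (Nat.Prime.dvd_mul hp).mp h4 with h | h
  · have := Nat.le_of_dvd (by omega) h
    omega
  · have := Nat.le_of_dvd (by omega) h
    omega

variable (K L : Type) [Field K] [NumberField K] [Field L] [NumberField L] [Algebra K L]
  [IsCyclotomicExtension {p} ℚ K] [IsGalois K L] [IsGalois ℚ L]

/-- **The END of the proof of `NoExt`**: for `K = ℚ(ζ_p) ⊆ L` of degree `p`, unramified
everywhere, with the twist `ω⁻¹`: an Artin map `Φ` killing the principal ideals (R), the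
principality of `∏_s τ_s 𝔔` (S) and a prime `𝔔` of degree one with nontrivial Frobenius (D) are
contradictory. -/
theorem noExt_core (hp3 : 3 ≤ p) (hdeg : Module.finrank K L = p)
    (hU : UnramifiedEverywhere K L)
    (hT : ∀ (ζ : L) (τ : L ≃ₐ[ℚ] L) (s : ℕ), IsPrimitiveRoot ζ p → τ ζ = ζ ^ s →
      ∀ (σ : L ≃ₐ[K] L) (x : L), σ (τ x) = τ ((σ ^ s) x))
    (Φ : Ideal (𝓞 K) → (L ≃ₐ[K] L)) (hΦ : IsArtinMap K L ⊤ Φ)
    (hR : ∀ β : 𝓞 K, β ≠ 0 → Φ (Ideal.span {β}) = 1)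
    (hS : StS p)
    (𝔔 : Ideal (𝓞 K)) (q : ℕ) (σ₀ : L ≃ₐ[K] L) (h𝔔 : 𝔔.IsPrime) (hq : q.Prime) (hqp : q ≠ p)
    (hcard : Nat.card (𝓞 K ⧸ 𝔔) = q) (hF : IsFrobAt K L 𝔔 σ₀) (hσ₀ : σ₀ ≠ 1) : False := by
  classical
  have hp : p.Prime := Fact.out
  haveI : NeZero p := ⟨hp.ne_zero⟩
  haveI : IsGalois ℚ K := IsCyclotomicExtension.isGalois {p} ℚ K
  -- `𝔔 ≠ ⊥`
  have h𝔔0 : 𝔔 ≠ ⊥ := by
    intro h0
    have : Ideal.absNorm 𝔔 = q := by
      rw [Ideal.absNorm_apply, Submodule.cardQuot_apply]; exact hcard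
    rw [h0, Ideal.absNorm_bot] at this
    exact hq.ne_zero this.symm
  -- the Frobenius
  have hσ : Φ 𝔔 = σ₀ := frob_unique hU h𝔔 h𝔔0 (hΦ.frob 𝔔 h𝔔 h𝔔0 (by simp)) hF
  -- the automorphisms `τ_s`
  obtain ⟨τ, hτ⟩ := exists_tau p K
  have hcop : ∀ s ∈ Finset.Icc 1 ((p - 1) / 2), s.Coprime p := by
    intro s hs
    have hs' := Finset.mem_Icc.mp hs
    rw [Nat.coprime_comm, Nat.Prime.coprime_iff_not_dvd hp]
    intro hdvd
    have := Nat.le_of_dvd (by omega) hdvd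
    omega
  obtain ⟨J, hJ⟩ := hS hp3 K 𝔔 q h𝔔 hq hqp hcard τ (fun s hs ζ hζ => hτ s (hcop s hs) ζ hζ)
  -- a primitive root
  obtain ⟨ζK, hζK⟩ := IsCyclotomicExtension.exists_isPrimitiveRoot ℚ K (S := {p}) rfl
    hp.ne_zero
  have hζL : IsPrimitiveRoot (algebraMap K L ζK) p :=
    hζK.map_of_injective (algebraMap K L).injective
  -- (E)
  have hE : ∀ s ∈ Finset.Icc 1 ((p - 1) / 2), (τ s • 𝔔).IsPrime ∧ τ s • 𝔔 ≠ ⊥ ∧
      Φ (τ s • 𝔔) = Φ 𝔔 ^ s := by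
    intro s hs
    obtain ⟨τ', hτ'⟩ := AlgEquiv.restrictNormalHom_surjective (F := ℚ) (K₁ := K) L (τ s)
    have hprime : (τ s • 𝔔).IsPrime := Ideal.IsPrime.smul (τ s)
    have hne : τ s • 𝔔 ≠ ⊥ := by
      intro h0
      apply h𝔔0
      have := congrArg (fun I => (τ s)⁻¹ • I) h0
      simpa using this
    refine ⟨hprime, hne, ?_⟩
    -- `τ'⁻¹ ζ = ζ ^ s`
    have h1 : τ' (algebraMap K L (ζK ^ s)) = algebraMap K L ζK := by
      have := AlgEquiv.restrictNormal_commutes τ' K (ζK ^ s)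
      rw [← this]
      congr 1
      have h2 : AlgEquiv.restrictNormalHom K τ' (ζK ^ s) = ζK := by
        rw [hτ']; exact hτ s (hcop s hs) ζK hζK
      exact h2
    have h3 : τ'⁻¹ (algebraMap K L ζK) = (algebraMap K L ζK) ^ s := by
      have h30 : τ'⁻¹ (τ' (algebraMap K L (ζK ^ s))) = algebraMap K L (ζK ^ s) :=
        τ'.symm_apply_apply _
      rw [h1, map_pow] at h30
      exact h30
    have h4 := hT (algebraMap K L ζK) τ'⁻¹ s hζL h3 (Φ 𝔔)
    have h5 : ∀ x : L, (Φ 𝔔 ^ s) x = τ' (Φ 𝔔 (τ'⁻¹ x)) := by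
      intro x
      rw [h4 x]
      exact (τ'.apply_symm_apply _).symm
    have h6 := frob_conj τ' h5 (hΦ.frob 𝔔 h𝔔 h𝔔0 (by simp))
    rw [hτ'] at h6
    exact frob_unique hU hprime hne (hΦ.frob _ hprime hne (by simp)) h6
  -- the product
  have hprod : ∀ S : Finset ℕ, S ⊆ Finset.Icc 1 ((p - 1) / 2) →
      (∏ s ∈ S, τ s • 𝔔) ≠ ⊥ ∧ Φ (∏ s ∈ S, τ s • 𝔔) = Φ 𝔔 ^ (∑ s ∈ S, s) := by
    intro S
    induction S using Finset.induction_on with
    | empty =>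
      intro _
      refine ⟨?_, ?_⟩
      · rw [Finset.prod_empty, Ideal.one_eq_top]; exact top_ne_bot
      · rw [Finset.prod_empty, Finset.sum_empty, pow_zero, Ideal.one_eq_top]; exact hΦ.map_one
    | insert a S ha ih =>
      intro hsub
      have haI : a ∈ Finset.Icc 1 ((p - 1) / 2) := hsub (Finset.mem_insert_self a S)
      obtain ⟨h1, h2⟩ := ih (fun x hx => hsub (Finset.mem_insert_of_mem hx))
      obtain ⟨-, h3, h4⟩ := hE a haI
      refine ⟨?_, ?_⟩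
      · rw [Finset.prod_insert ha]
        exact mul_ne_zero h3 h1
      · rw [Finset.prod_insert ha, Finset.sum_insert ha, hΦ.map_mul _ _ h3 h1 (by simp) (by simp),
          h4, h2, pow_add]
  obtain ⟨hne, hval⟩ := hprod _ (Finset.Subset.refl _)
  have hJ0 : J ≠ 0 := by
    intro h0
    rw [h0, Ideal.span_singleton_eq_bot.mpr rfl] at hJ
    exact hne hJ.symm
  have h1 : Φ 𝔔 ^ (∑ s ∈ Finset.Icc 1 ((p - 1) / 2), s) = 1 := by
    rw [← hval, ← hJ]; exact hR J hJ0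
  have h2 : Φ 𝔔 ^ p = 1 := by
    have hc : Nat.card (L ≃ₐ[K] L) = p := by rw [IsGalois.card_aut_eq_finrank, hdeg]
    rw [← hc]
    exact pow_card_eq_one'
  have h3 : orderOf (Φ 𝔔) ∣ 1 := by
    have := Nat.dvd_gcd (orderOf_dvd_of_pow_eq_one h1) (orderOf_dvd_of_pow_eq_one h2)
    rwa [(coprime_sum p hp3)] at this
  have h4 : Φ 𝔔 = 1 := orderOf_eq_one_iff.mp (Nat.dvd_one.mp h3)
  exact hσ₀ (hσ ▸ h4)

/-- A Galois extension of prime degree has commutative Galois group. -/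
theorem gal_comm_of_prime_degree (hdeg : Module.finrank K L = p) (σ τ : L ≃ₐ[K] L) :
    σ * τ = τ * σ := by
  have hp : p.Prime := Fact.out
  have hc : Nat.card (L ≃ₐ[K] L) = p := by rw [IsGalois.card_aut_eq_finrank, hdeg]
  haveI : IsCyclic (L ≃ₐ[K] L) := isCyclic_of_prime_card hc
  haveI : IsMulCommutative (L ≃ₐ[K] L) := IsCyclic.isMulCommutative
  exact mul_comm' σ τ

omit [IsCyclotomicExtension {p} ℚ K] [IsGalois ℚ L] [Fact p.Prime] in
/-- Unramified everywhere implies unramified outside `⊤`. -/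
theorem unramifiedOutside_top (hU : UnramifiedEverywhere K L) : UnramifiedOutside K L ⊤ :=
  fun _ _ _ _ P hP hP0 _ σ hσ => hU P hP hP0 σ hσ

/-- The reciprocity hypothesis in the exact situation of `StNoExt` (all hypotheses of `StNoExt`
are available to its prover): this is what `noExt` consumes.  Both `StR p` (Defs) and the
variant `StR'` of AL (with `[IsGalois ℚ L]` and the twist as extra hypotheses) imply it. -/
def StRNoExt : Prop :=
  ∀ (K L : Type) [Field K] [NumberField K] [Field L] [NumberField L] [Algebra K L]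
    [IsCyclotomicExtension {p} ℚ K] [IsGalois K L] [IsGalois ℚ L],
    Module.finrank K L = p →
    UnramifiedEverywhere K L →
    (∀ (ζ : L) (τ : L ≃ₐ[ℚ] L) (s : ℕ), IsPrimitiveRoot ζ p → τ ζ = ζ ^ s →
      ∀ (σ : L ≃ₐ[K] L) (x : L), σ (τ x) = τ ((σ ^ s) x)) →
    ∀ Φ : Ideal (𝓞 K) → (L ≃ₐ[K] L), IsArtinMap K L ⊤ Φ →
      ∀ β : 𝓞 K, β ≠ 0 → Φ (Ideal.span {β}) = 1

theorem stRNoExt_of_stR (hp3 : 3 ≤ p) (hR : StR p) : StRNoExt p :=
  fun K L _ _ _ _ _ _ _ _ hdeg hU _ Φ hΦ β hβ => hR hp3 K L hdeg hU Φ hΦ β hβ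

/-- **`StNoExt p` from (R), (S), (D) and the existence of the Artin map.** -/
theorem stNoExt_of (hp3 : 3 ≤ p) (hA : StArtinExists) (hR : StRNoExt p) (hS : StS p)
    (hD : StD p) : StNoExt p := by
  intro K L _ _ _ _ _ _ _ _ hdeg hU hT
  obtain ⟨Φ, hΦ⟩ := hA K L (gal_comm_of_prime_degree p K L hdeg) ⊤ (unramifiedOutside_top K L hU)
  obtain ⟨𝔔, q, σ₀, h𝔔, hq, hqp, hcard, hF, hσ₀⟩ := hD hp3 K L hdeg hU
  exact noExt_core p K L hp3 hdeg hU hT Φ hΦ (hR K L hdeg hU hT Φ hΦ) hS 𝔔 q σ₀ h𝔔 hq hqp hcard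
    hF hσ₀

/-- The same with LFN's form of (D) (`StArtinExists → StD p`). -/
theorem stNoExt_of' (hp3 : 3 ≤ p) (hA : StArtinExists) (hR : StRNoExt p) (hS : StS p)
    (hD : StArtinExists → StD p) : StNoExt p :=
  stNoExt_of p hp3 hA hR hS (hD hA)

/-- **The top wiring, verbatim `StTop p` of `Asm/Defs.lean`.** -/
theorem stTop : StTop p :=
  fun hp3 hG hA hR hS hD => hG hp3 (stNoExt_of p hp3 hA (stRNoExt_of_stR p hp3 hR) hS hD)

/-- `Core p` from GLUE and the number-theoretic inputs, with (R) in the `StRNoExt` form. -/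
theorem core_of (hp3 : 3 ≤ p) (hG : StGLUE p) (hA : StArtinExists) (hR : StRNoExt p)
    (hS : StS p) (hD : StD p) : Core p :=
  hG hp3 (stNoExt_of p hp3 hA hR hS hD)

end Main

end Fermat.Agent.S14x.Asm.H26
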