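import Fermat.Agent.S14x.Asm.H26_Wire
import Fermat.Agent.S14x.Glue.H24_Inst
import Fermat.Agent.S14x.HQ.H18_Final
import Fermat.Agent.S14x.Cnt.H5_StCNT
import Fermat.Agent.S14x.LFN.H11_AdU
import Fermat.Agent.S14x.LFN.H11_AdD
import Fermat.Agent.S14x.LFN.H22_Main
import Fermat.Agent.S14x.LFN.H29_Ray
import Fermat.Agent.S14x.Art.H28_AsmArt
import Fermat.Agent.S14x.Art.H10_Funct
import Fermat.Agent.S14x.AL.H20_Final
import Fermat.Agent.S14x.AL.H13_Step
import Fermat.Agent.S14x.AL.H15_CyAsm
import Fermat.Agent.S14x.AL.H8_Prod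
import Fermat.Agent.S14x.AL.H9_OneField
import Fermat.Agent.S14x.AL.H10_Leaves
import Fermat.Agent.S14x.AL.H16_DegOne
import Fermat.Agent.S14x.AL.H7_Ref
import Fermat.Agent.S14x.AL.H14_PairDefs

/-!
# S14: wiring of ALL landed deliverables (helper26)

Everything of the blueprint is plugged in except leaf [F7] of package AL (Artin's lemma for
pairs of primes), which enters as the single hypothesis.

* `h26_stCNT`, `h26_stU`, `h26_stDgen`, `h26_stD`, `h26_stCy`, `h26_stLw` : the deliverables of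
  CNT, LFN, ART + LFN, HQ in the shapes of `Asm/Defs.lean`, hypothesis-free.
* `h26_stR'_of_pair`  : `AL.StPair p → AL.StR' p`.
* `h26_ext_of_pair`   : `AL.StPair p → ExtVanishingCts p`.
* `h26_ext_of_pairAsm`: `AL.StPairAsm p → ExtVanishingCts p` (the AL leaves F2 - F6 plugged in).
* `h26_ext_of_halves` : `AL.StPairDataAsm p → AL.StPairOfData p → ExtVanishingCts p`.
-/

set_option autoImplicit false

open NumberField

noncomputable section

namespace Fermat.Agent.S14x.Asm.H26

/-- (CNT), hypothesis-free. -/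
theorem h26_stCNT : StCNT := Cnt.H5.stCNT

/-- (U), hypothesis-free. -/
theorem h26_stU : StU := LFN.H11.stU LFN.H29.stRAY LFN.Main.stUabs h26_stCNT

/-- (D), general form, hypothesis-free. -/
theorem h26_stDgen : StDgen := LFN.H11.stDgen LFN.Main.stDabs

/-- (Lw), hypothesis-free. -/
theorem h26_stLw : StLw := HQ.h18_asm_stLw

/-- (Cy), hypothesis-free. -/
theorem h26_stCy : StCy :=
  AL.H15.stCyAsm Art.H28.stArtinExists Art.H28.stN h26_stU h26_stDgen

variable (p : ℕ) [Fact p.Prime]

/-- (D) for `p`, hypothesis-free. -/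
theorem h26_stD : StD p := LFN.H11.stD p LFN.Main.stDabs Art.H28.stArtinExists

/-- (R) from Artin's lemma for pairs. -/
theorem h26_stR'_of_pair (hPair : AL.StPair p) : AL.StR' p :=
  AL.h20_stR'_of p hPair AL.H13.stStep Art.H28.stArtinExists Art.H28.stN Art.H10.stFunct
    h26_stCy h26_stDgen h26_stLw

/-- **S14 from Artin's lemma for pairs.** -/
theorem h26_ext_of_pair (hp3 : 3 ≤ p) (hPair : AL.StPair p) : ExtCitation.ExtVanishingCts p :=
  extVanishingCts_of_open p hp3 Glue.stGLUE (h26_stR'_of_pair p hPair) (h26_stD p)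

/-- `StPair p` from the assembly [F7] (the leaves F2 - F6 plugged in). -/
theorem h26_stPair_of_asm (hAsm : AL.StPairAsm p) : AL.StPair p :=
  hAsm (AL.H8P.stProd p) AL.stOneField AL.H10.stDegOne AL.H16.stDegOne' AL.H7.stRef
    AL.H10.stFrobF

/-- `StPair p` from the two halves [F7a], [F7b] of the assembly. -/
theorem h26_stPair_of_halves (hA : AL.StPairDataAsm p) (hB : AL.StPairOfData p) :
    AL.StPair p :=
  hB (hA (AL.H8P.stProd p) AL.H10.stFrobF) AL.stOneField AL.H10.stDegOne AL.H16.stDegOne'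
    AL.H7.stRef

/-- **S14 from the assembly [F7].** -/
theorem h26_ext_of_pairAsm (hp3 : 3 ≤ p) (hAsm : AL.StPairAsm p) :
    ExtCitation.ExtVanishingCts p :=
  h26_ext_of_pair p hp3 (h26_stPair_of_asm p hAsm)

/-- **S14 from the two halves [F7a], [F7b].** -/
theorem h26_ext_of_halves (hp3 : 3 ≤ p) (hA : AL.StPairDataAsm p) (hB : AL.StPairOfData p) :
    ExtCitation.ExtVanishingCts p :=
  h26_ext_of_pair p hp3 (h26_stPair_of_halves p hA hB)

end Fermat.Agent.S14x.Asm.H26
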